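import Fermat.Agent.S22.Defs

set_option autoImplicit false

noncomputable section

namespace Fermat.Agent.S22

open UpperHalfPlane Filter Topology Matrix.SpecialLinearGroup CongruenceSubgroup
open scoped MatrixGroups ModularForm Manifold

/-! ## A. abstract algebra -/

theorem Algebra.comp_mem_of_mem_adjoin {V : Type*} [AddCommGroup V] [Module ℂ V]
    (gens : Set (Module.End ℂ V)) (M : Submodule ℤ (Module.Dual ℂ V))
    (hstab : ∀ t ∈ gens, ∀ ξ ∈ M, ξ ∘ₗ t ∈ M) {t : Module.End ℂ V}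
    (ht : t ∈ Algebra.adjoin ℤ gens) : ∀ ξ ∈ M, ξ ∘ₗ t ∈ M := by
  induction ht using Algebra.adjoin_induction with
  | mem x hx => exact hstab x hx
  | algebraMap r =>
    intro ξ hξ
    have : ξ ∘ₗ (algebraMap ℤ (Module.End ℂ V) r) = r • ξ := by
      ext v
      simp
    rw [this]
    exact M.smul_mem r hξ
  | add x y _ _ hx hy =>
    intro ξ hξ
    rw [LinearMap.comp_add]
    exact M.add_mem (hx ξ hξ) (hy ξ hξ)
  | mul x y _ _ hx hy =>
    intro ξ hξ
    have : ξ ∘ₗ (x * y) = (ξ ∘ₗ x) ∘ₗ y := by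
      ext v
      simp
    rw [this]
    exact hy _ (hx ξ hξ)

theorem finite_of_dual_lattice {V : Type*} [AddCommGroup V] [Module ℂ V]
    (gens : Set (Module.End ℂ V)) (M : Submodule ℤ (Module.Dual ℂ V)) (hfg : M.FG)
    (hstab : ∀ t ∈ gens, ∀ ξ ∈ M, ξ ∘ₗ t ∈ M)
    (hsep : ∀ f : V, (∀ ξ ∈ M, ξ f = 0) → f = 0) :
    Module.Finite ℤ (Algebra.adjoin ℤ gens) := by
  have : Module.Finite ℤ M := Module.Finite.iff_fg.mpr hfg
  have hmem := fun {t : Module.End ℂ V} (ht : t ∈ Algebra.adjoin ℤ gens) =>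
    Algebra.comp_mem_of_mem_adjoin gens M hstab ht
  obtain ⟨s, hs⟩ := hfg
  -- the `ℤ`-linear map `t ↦ (ξ ∘ t)_{ξ ∈ s}`
  let Φ : (Algebra.adjoin ℤ gens) →ₗ[ℤ] ({ξ // ξ ∈ s} → M) :=
    { toFun := fun t ξ => ⟨(ξ : Module.Dual ℂ V) ∘ₗ (t : Module.End ℂ V),
        hmem t.2 _ (hs ▸ Submodule.subset_span ξ.2)⟩
      map_add' := by
        intro t t'
        funext ξ
        apply Subtype.ext
        simp [LinearMap.comp_add]
      map_smul' := by
        intro r t
        funext ξ
        apply Subtype.ext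
        ext v
        simp }
  have hΦ : Function.Injective Φ := by
    rw [injective_iff_map_eq_zero]
    intro t ht
    apply Subtype.ext
    have h0 : ∀ ξ ∈ s, ξ ∘ₗ (t : Module.End ℂ V) = 0 := by
      intro ξ hξ
      have := congrFun ht ⟨ξ, hξ⟩
      exact congrArg Subtype.val this
    have h1 : ∀ ξ ∈ M, ξ ∘ₗ (t : Module.End ℂ V) = 0 := by
      intro ξ hξ
      rw [← hs] at hξ
      induction hξ using Submodule.span_induction with
      | mem x hx => exact h0 x hx
      | zero => simp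
      | add x y _ _ hx hy => rw [LinearMap.add_comp, hx, hy, add_zero]
      | smul a x _ hx => rw [LinearMap.smul_comp, hx, smul_zero]
    ext f
    apply hsep
    intro ξ hξ
    have := LinearMap.congr_fun (h1 ξ hξ) f
    simpa using this
  exact Module.Finite.of_injective Φ hΦ

end Fermat.Agent.S22

end
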