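import Fermat.Agent.S22.Defs

set_option autoImplicit false

noncomputable section

namespace Fermat.Agent.S22

open UpperHalfPlane Filter Topology Matrix.SpecialLinearGroup CongruenceSubgroup
open scoped MatrixGroups ModularForm Manifold

/-! ## C. primitives -/

theorem IsPrim.add {H₁ H₂ μ₁ μ₂ : ℍ → ℂ} (h₁ : IsPrim H₁ μ₁) (h₂ : IsPrim H₂ μ₂) :
    IsPrim (H₁ + H₂) (μ₁ + μ₂) := fun τ => (h₁ τ).add (h₂ τ)

theorem IsPrim.const_smul {H μ : ℍ → ℂ} (c : ℂ) (h : IsPrim H μ) : IsPrim (c • H) (c • μ) :=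
  fun τ => (h τ).const_smul c

theorem Prim.isPrim_zero : IsPrim 0 0 := fun τ => hasDerivAt_const (τ : ℂ) (0 : ℂ)

theorem IsPrim.sum {ι : Type*} (s : Finset ι) {H μ : ι → ℍ → ℂ} (h : ∀ i ∈ s, IsPrim (H i) (μ i)) :
    IsPrim (∑ i ∈ s, H i) (∑ i ∈ s, μ i) := by
  classical
  induction s using Finset.induction_on with
  | empty => simpa using Prim.isPrim_zero
  | insert a s ha ih =>
    rw [Finset.sum_insert ha, Finset.sum_insert ha]
    exact (h a (Finset.mem_insert_self a s)).add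
      (ih fun i hi => h i (Finset.mem_insert_of_mem hi))

theorem Prim.eq_const_of_hasDerivAt_zero {D : ℍ → ℂ}
    (h : ∀ τ : ℍ, HasDerivAt (D ∘ ofComplex) 0 τ) (τ τ' : ℍ) : D τ = D τ' := by
  have hconv : Convex ℝ {z : ℂ | 0 < z.im} := convex_halfSpace_im_gt 0
  have hd : DifferentiableOn ℂ (D ∘ ofComplex) {z : ℂ | 0 < z.im} := fun z hz =>
    ((h ⟨z, hz⟩).differentiableAt).differentiableWithinAt
  have hz : ∀ z ∈ {z : ℂ | 0 < z.im}, fderivWithin ℂ (D ∘ ofComplex) {z : ℂ | 0 < z.im} z = 0 := by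
    intro z hz
    have hopen : IsOpen {z : ℂ | 0 < z.im} := isOpen_upperHalfPlaneSet
    rw [fderivWithin_of_isOpen hopen hz]
    have := (h ⟨z, hz⟩).hasFDerivAt.fderiv
    rw [this]
    ext
    simp
  have := hconv.is_const_of_fderivWithin_eq_zero hd hz τ.2 τ'.2
  simpa using this

theorem IsPrim.exists_eq_add_const {H μ ν : ℍ → ℂ} (h₁ : IsPrim H μ) (h₂ : IsPrim H ν) :
    ∃ c : ℂ, ∀ τ, μ τ = ν τ + c := by
  have hD : ∀ τ : ℍ, HasDerivAt ((μ - ν) ∘ ofComplex) 0 τ := fun τ => by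
    have := (h₁ τ).sub (h₂ τ)
    rw [sub_self] at this
    exact this
  refine ⟨(μ - ν) I, fun τ => ?_⟩
  have := Prim.eq_const_of_hasDerivAt_zero hD τ I
  rw [← this]
  simp

theorem IsPrim.eq_zero_of_zero {H : ℍ → ℂ} (h : IsPrim H 0) : H = 0 := by
  funext τ
  have h1 := h τ
  have h2 : HasDerivAt ((0 : ℍ → ℂ) ∘ ofComplex) 0 (τ : ℂ) := hasDerivAt_const (τ : ℂ) (0 : ℂ)
  exact h1.unique h2

theorem IsPrim.mdiff {H μ : ℍ → ℂ} (h : IsPrim H μ) : MDiff μ := fun τ =>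
  UpperHalfPlane.mdifferentiableAt_iff.mpr (h τ).differentiableAt

theorem IsPrim.slash {H μ : ℍ → ℂ} (h : IsPrim H μ) {γ : GL (Fin 2) ℝ} (hγ : 0 < γ.det.val) :
    IsPrim (H ∣[(2 : ℤ)] γ) (fun w => μ (γ • w)) := by
  intro τ
  have hdet : γ.det.val = γ.val.det := Matrix.GeneralLinearGroup.val_det_apply γ
  have hγ' : 0 < γ.val.det := hdet ▸ hγ
  have hσ : ∀ x, σ γ x = x := fun x => by simp [σ, hγ']
  have h_smul : HasDerivAt (fun w ↦ ↑(γ • ofComplex w) : ℂ → ℂ)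
      ((γ.val.det : ℂ) / denom γ τ ^ 2) ↑τ := (hasStrictDerivAt_smul hγ' τ).hasDerivAt
  have h_F : HasDerivAt (μ ∘ ofComplex) (H (γ • τ)) ↑(γ • ofComplex (τ : ℂ)) :=
    (ofComplex_apply τ).symm ▸ h (γ • τ)
  have h3 := h_F.comp (τ : ℂ) h_smul
  have hval : H (γ • τ) * ((γ.val.det : ℂ) / denom γ τ ^ 2) = (H ∣[(2 : ℤ)] γ) τ := by
    rw [ModularForm.slash_apply, hσ, hdet, abs_of_pos hγ']
    have hz := denom_ne_zero γ τ
    simp only [Int.reduceSub, zpow_one, zpow_neg]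
    rw [div_eq_mul_inv, mul_assoc]
    norm_cast
  rw [hval] at h3
  refine h3.congr_of_eventuallyEq ?_
  filter_upwards with z
  simp [Function.comp]

theorem IsPrim.linpow_mul {F G : ℍ → ℂ} (h : IsPrim F G) (u v : ℂ) (n : ℕ) :
    IsPrim (fun τ => ((n + 1 : ℕ) : ℂ) * u * (u * (τ : ℂ) + v) ^ n * G τ
      + (u * (τ : ℂ) + v) ^ (n + 1) * F τ) (fun τ => (u * (τ : ℂ) + v) ^ (n + 1) * G τ) := by
  intro τ
  have h1 : HasDerivAt (fun z : ℂ => u * z + v) u (τ : ℂ) := by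
    simpa using ((hasDerivAt_id (τ : ℂ)).const_mul u).add_const v
  have h2 := h1.pow (n + 1)
  have h3 := h2.mul (h τ)
  have hval : ((n + 1 : ℕ) : ℂ) * (u * (τ : ℂ) + v) ^ (n + 1 - 1) * u * (G ∘ ofComplex) (τ : ℂ)
      + (u * (τ : ℂ) + v) ^ (n + 1) * F τ
      = ((n + 1 : ℕ) : ℂ) * u * (u * (τ : ℂ) + v) ^ n * G τ
      + (u * (τ : ℂ) + v) ^ (n + 1) * F τ := by
    simp only [Nat.add_sub_cancel, Function.comp_apply, ofComplex_apply]
    ring
  have h4 : HasDerivAt ((fun z : ℂ => u * z + v) ^ (n + 1) * G ∘ ofComplex)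
      (((n + 1 : ℕ) : ℂ) * u * (u * (τ : ℂ) + v) ^ n * G τ
      + (u * (τ : ℂ) + v) ^ (n + 1) * F τ) (τ : ℂ) := hval ▸ h3
  refine h4.congr_of_eventuallyEq ?_
  filter_upwards [isOpen_upperHalfPlaneSet.mem_nhds τ.im_pos] with z hz
  simp [Function.comp, ofComplex_apply_of_im_pos hz]

end Fermat.Agent.S22

end
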