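import Fermat.Agent.S22.Cone
import Fermat.Agent.S22.Prim

set_option autoImplicit false

noncomputable section

namespace Fermat.Agent.S22

open UpperHalfPlane Filter Topology Matrix.SpecialLinearGroup CongruenceSubgroup
open scoped MatrixGroups ModularForm Manifold

/-! ## E. API for `IsCuspPrim`, `IsPer` -/

theorem IsCuspPrim.unique {H : ℍ → ℂ} {g : GL (Fin 2) ℝ} {μ μ' : ℍ → ℂ}
    (h : IsCuspPrim H g μ) (h' : IsCuspPrim H g μ') : μ = μ' := by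
  obtain ⟨c, hc⟩ := h.1.exists_eq_add_const h'.1
  have h1 : Tendsto (fun w : ℍ => μ (g • w) - μ' (g • w)) coneInfty (𝓝 (0 - 0)) := h.2.sub h'.2
  have h2 : Tendsto (fun w : ℍ => μ (g • w) - μ' (g • w)) coneInfty (𝓝 c) := by
    have : (fun w : ℍ => μ (g • w) - μ' (g • w)) = fun _ => c := by
      funext w; rw [hc]; ring
    rw [this]; exact tendsto_const_nhds
  have hc0 : c = 0 := by
    have := tendsto_nhds_unique h2 h1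
    simpa using this
  funext τ
  rw [hc, hc0, add_zero]

theorem IsCuspPrim.add {H₁ H₂ : ℍ → ℂ} {g : GL (Fin 2) ℝ} {μ₁ μ₂ : ℍ → ℂ}
    (h₁ : IsCuspPrim H₁ g μ₁) (h₂ : IsCuspPrim H₂ g μ₂) : IsCuspPrim (H₁ + H₂) g (μ₁ + μ₂) := by
  refine ⟨h₁.1.add h₂.1, ?_⟩
  have := h₁.2.add h₂.2
  simpa using this

theorem IsCuspPrim.const_smul {H : ℍ → ℂ} {g : GL (Fin 2) ℝ} {μ : ℍ → ℂ} (c : ℂ)
    (h : IsCuspPrim H g μ) : IsCuspPrim (c • H) g (c • μ) := by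
  refine ⟨h.1.const_smul c, ?_⟩
  have := h.2.const_mul c
  simpa using this

theorem IsCuspPrim.sum {ι : Type*} (s : Finset ι) {H μ : ι → ℍ → ℂ} {g : GL (Fin 2) ℝ}
    (h : ∀ i ∈ s, IsCuspPrim (H i) g (μ i)) : IsCuspPrim (∑ i ∈ s, H i) g (∑ i ∈ s, μ i) := by
  refine ⟨IsPrim.sum s fun i hi => (h i hi).1, ?_⟩
  have := tendsto_finsetSum s fun i hi => (h i hi).2
  simpa using this

theorem IsCuspPrim.mul_right {H : ℍ → ℂ} {g : GL (Fin 2) ℝ} {μ : ℍ → ℂ} (h : IsCuspPrim H g μ)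
    {b : GL (Fin 2) ℝ} (hb : b 1 0 = 0) (hdet : 0 < b.det.val) : IsCuspPrim H (g * b) μ := by
  refine ⟨h.1, ?_⟩
  have := h.2.comp (tendsto_smul_coneInfty hb hdet)
  refine this.congr fun w => ?_
  simp only [Function.comp_apply, mul_smul]

theorem IsCuspPrim.slash {H : ℍ → ℂ} {γ g : GL (Fin 2) ℝ} {μ : ℍ → ℂ} (hγ : 0 < γ.det.val)
    (h : IsCuspPrim H (γ * g) μ) : IsCuspPrim (H ∣[(2 : ℤ)] γ) g (fun w => μ (γ • w)) := by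
  refine ⟨h.1.slash hγ, ?_⟩
  refine h.2.congr fun w => ?_
  simp only [mul_smul]

theorem IsPer.unique {H : ℍ → ℂ} {g g' : GL (Fin 2) ℝ} {r r' : ℂ}
    (h : IsPer H g g' r) (h' : IsPer H g g' r') : r = r' := by
  obtain ⟨μ, ν, hμ, hν, hr⟩ := h
  obtain ⟨μ', ν', hμ', hν', hr'⟩ := h'
  rw [← hr I, ← hr' I, hμ.unique hμ', hν.unique hν']

theorem IsPer.add {H₁ H₂ : ℍ → ℂ} {g g' : GL (Fin 2) ℝ} {r₁ r₂ : ℂ}
    (h₁ : IsPer H₁ g g' r₁) (h₂ : IsPer H₂ g g' r₂) : IsPer (H₁ + H₂) g g' (r₁ + r₂) := by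
  obtain ⟨μ, ν, hμ, hν, hr⟩ := h₁
  obtain ⟨μ', ν', hμ', hν', hr'⟩ := h₂
  refine ⟨μ + μ', ν + ν', hμ.add hμ', hν.add hν', fun τ => ?_⟩
  rw [← hr τ, ← hr' τ]
  simp only [Pi.add_apply]
  ring

theorem IsPer.const_smul {H : ℍ → ℂ} {g g' : GL (Fin 2) ℝ} {r : ℂ} (c : ℂ)
    (h : IsPer H g g' r) : IsPer (c • H) g g' (c * r) := by
  obtain ⟨μ, ν, hμ, hν, hr⟩ := h
  refine ⟨c • μ, c • ν, hμ.const_smul c, hν.const_smul c, fun τ => ?_⟩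
  rw [← hr τ]
  simp only [Pi.smul_apply, smul_eq_mul]
  ring

theorem IsPer.sum {ι : Type*} (s : Finset ι) {H : ι → ℍ → ℂ} {g g' : GL (Fin 2) ℝ} {r : ι → ℂ}
    (h : ∀ i ∈ s, IsPer (H i) g g' (r i)) : IsPer (∑ i ∈ s, H i) g g' (∑ i ∈ s, r i) := by
  classical
  choose! μ ν hμ hν hr using h
  refine ⟨∑ i ∈ s, μ i, ∑ i ∈ s, ν i, IsCuspPrim.sum s hμ, IsCuspPrim.sum s hν, fun τ => ?_⟩
  simp only [Finset.sum_apply]
  rw [← Finset.sum_sub_distrib]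
  exact Finset.sum_congr rfl fun i hi => hr i hi τ

theorem IsPer.trans {H : ℍ → ℂ} {g g' g'' : GL (Fin 2) ℝ} {r r' : ℂ}
    (h : IsPer H g g' r) (h' : IsPer H g' g'' r') : IsPer H g g'' (r + r') := by
  obtain ⟨μ, ν, hμ, hν, hr⟩ := h
  obtain ⟨μ', ν', hμ', hν', hr'⟩ := h'
  refine ⟨μ, ν', hμ, hν', fun τ => ?_⟩
  rw [← hr τ, ← hr' τ, hν.unique hμ']
  ring

theorem IsPer.symm {H : ℍ → ℂ} {g g' : GL (Fin 2) ℝ} {r : ℂ}
    (h : IsPer H g g' r) : IsPer H g' g (-r) := by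
  obtain ⟨μ, ν, hμ, hν, hr⟩ := h
  refine ⟨ν, μ, hν, hμ, fun τ => ?_⟩
  rw [← hr τ]
  ring

theorem IsPer.mul_right {H : ℍ → ℂ} {g g' : GL (Fin 2) ℝ} {r : ℂ} (h : IsPer H g g' r)
    {b b' : GL (Fin 2) ℝ} (hb : b 1 0 = 0) (hdet : 0 < b.det.val)
    (hb' : b' 1 0 = 0) (hdet' : 0 < b'.det.val) : IsPer H (g * b) (g' * b') r := by
  obtain ⟨μ, ν, hμ, hν, hr⟩ := h
  exact ⟨μ, ν, hμ.mul_right hb hdet, hν.mul_right hb' hdet', hr⟩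

theorem IsPer.slash {H : ℍ → ℂ} {γ g g' : GL (Fin 2) ℝ} {r : ℂ} (hγ : 0 < γ.det.val)
    (h : IsPer H (γ * g) (γ * g') r) : IsPer (H ∣[(2 : ℤ)] γ) g g' r := by
  obtain ⟨μ, ν, hμ, hν, hr⟩ := h
  exact ⟨fun w => μ (γ • w), fun w => ν (γ • w), hμ.slash hγ, hν.slash hγ, fun τ => hr _⟩

theorem IsPer.of_cuspPrim {H : ℍ → ℂ} {g g' : GL (Fin 2) ℝ} {μ μ' : ℍ → ℂ}
    (h : IsCuspPrim H g μ) (h' : IsCuspPrim H g' μ') : IsPer H g g' (μ I - μ' I) := by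
  obtain ⟨c, hc⟩ := h.1.exists_eq_add_const h'.1
  refine ⟨μ, μ', h, h', fun τ => ?_⟩
  rw [hc τ, hc I]
  ring

end Fermat.Agent.S22

end
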