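import Fermat.Agent.S22.Cone
import Fermat.Agent.S22.Prim

set_option autoImplicit false

noncomputable section

namespace Fermat.Agent.S22

open UpperHalfPlane Filter Topology Matrix.SpecialLinearGroup CongruenceSubgroup
open scoped MatrixGroups ModularForm Manifold

/-! ## D. chains of primitives of periodic cuspidal functions -/

namespace Chain

open Function.Periodic Complex

theorem periodic_comp {h : ℝ} {F : ℍ → ℂ} (hF : IsCP h F) :
    Function.Periodic (F ∘ ofComplex) (h : ℂ) := by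
  intro w
  by_cases hw : 0 < im w
  · have hw' : 0 < im (w + h) := by simp only [add_im, ofReal_im, add_zero, hw]
    simp only [Function.comp_apply, ofComplex_apply_of_im_pos hw', ofComplex_apply_of_im_pos hw]
    rw [← hF.per ⟨w, hw⟩]
    congr 1
    ext
    simp [add_comm]
  · have hw' : im (w + h) ≤ 0 := by simpa only [add_im, ofReal_im, add_zero, not_lt] using hw
    simp only [Function.comp_apply, ofComplex_apply_of_im_nonpos hw',
      ofComplex_apply_of_im_nonpos (not_lt.mp hw)]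

theorem differentiableAt_comp {h : ℝ} {F : ℍ → ℂ} (hF : IsCP h F) {z : ℂ} (hz : 0 < z.im) :
    DifferentiableAt ℂ (F ∘ ofComplex) z :=
  ((UpperHalfPlane.mdifferentiable_iff.mp hF.holo) z hz).differentiableAt
    ((isOpen_lt continuous_const Complex.continuous_im).mem_nhds hz)

theorem eventually_differentiableAt_comp {h : ℝ} {F : ℍ → ℂ} (hF : IsCP h F) :
    ∀ᶠ z in comap Complex.im atTop, DifferentiableAt ℂ (F ∘ ofComplex) z := by
  have : ∀ᶠ z in comap Complex.im atTop, 0 < z.im :=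
    (tendsto_comap (f := Complex.im) (x := atTop)).eventually (eventually_gt_atTop 0)
  exact this.mono fun z hz => differentiableAt_comp hF hz

theorem zeroAt_comp {h : ℝ} {F : ℍ → ℂ} (hF : IsCP h F) :
    ZeroAtFilter (comap Complex.im atTop) (F ∘ ofComplex) :=
  Tendsto.comp hF.zero tendsto_comap_im_ofComplex

theorem differentiableOn_cuspFunction {h : ℝ} (hh : 0 < h) {F : ℍ → ℂ} (hF : IsCP h F) :
    DifferentiableOn ℂ (cuspFunction h (F ∘ ofComplex)) (Metric.ball 0 1) := by
  intro q hq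
  apply DifferentiableAt.differentiableWithinAt
  rcases eq_or_ne q 0 with rfl | hq0
  · exact differentiableAt_cuspFunction_zero hh (periodic_comp hF)
      (eventually_differentiableAt_comp hF) (zeroAt_comp hF).boundedAtFilter
  · rw [← qParam_right_inv hh.ne' hq0]
    refine differentiableAt_cuspFunction hh.ne' (periodic_comp hF) (differentiableAt_comp hF ?_)
    rw [im_invQParam]
    have h1 : ‖q‖ < 1 := by simpa using hq
    have h2 : Real.log ‖q‖ < 0 := Real.log_neg (norm_pos_iff.mpr hq0) h1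
    have h3 : -h / (2 * Real.pi) < 0 := div_neg_of_neg_of_pos (by linarith) (by positivity)
    exact mul_pos_of_neg_of_neg h3 h2

end Chain

open Chain Function.Periodic in
theorem IsCP.exists_prim {h : ℝ} (hh : 0 < h) {F : ℍ → ℂ} (hF : IsCP h F) :
    ∃ G, IsCP h G ∧ IsPrim F G := by
  set φ := cuspFunction h (F ∘ ofComplex) with hφ
  have hφd : DifferentiableOn ℂ φ (Metric.ball 0 1) := differentiableOn_cuspFunction hh hF
  have hφ0 : φ 0 = 0 := cuspFunction_zero_of_zero_at_inf hh (zeroAt_comp hF)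
  have hψd : DifferentiableOn ℂ (dslope φ 0) (Metric.ball 0 1) :=
    (Complex.differentiableOn_dslope (Metric.ball_mem_nhds 0 one_pos)).mpr hφd
  obtain ⟨Ψ, hΨ0, hΨ⟩ := (hψd.isExactOn_ball).with_val_at 0 0
  have h2pi : (2 * Real.pi * Complex.I : ℂ) ≠ 0 := Complex.two_pi_I_ne_zero
  have hhC : (h : ℂ) ≠ 0 := by exact_mod_cast hh.ne'
  -- the primitive, as a function on `ℂ`
  set g : ℂ → ℂ := fun z => (h / (2 * Real.pi * Complex.I)) * Ψ (qParam h z) with hg
  have hqd : ∀ z : ℂ, HasDerivAt (qParam h) (qParam h z * (2 * Real.pi * Complex.I / h)) z := by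
    intro z
    have := (((hasDerivAt_id z).const_mul (2 * Real.pi * Complex.I)).div_const (h : ℂ)).cexp
    simpa only [id_eq, mul_one] using! this
  have hgd : ∀ τ : ℍ, HasDerivAt g (F τ) (τ : ℂ) := by
    intro τ
    have hq1 : qParam h (τ : ℂ) ∈ Metric.ball (0 : ℂ) 1 := by
      simpa using norm_qParam_lt_one hh τ.im_pos
    have h1 := ((hΨ _ hq1).comp (τ : ℂ) (hqd τ)).const_mul (h / (2 * Real.pi * Complex.I) : ℂ)
    have hq0 : qParam h (τ : ℂ) ≠ 0 := qParam_ne_zero _
    have h2 : dslope φ 0 (qParam h (τ : ℂ)) * qParam h (τ : ℂ) = F τ := by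
      rw [dslope_of_ne _ hq0, slope_def_field, hφ0, sub_zero, sub_zero, div_mul_cancel₀ _ hq0, hφ,
        eq_cuspFunction hh.ne' (periodic_comp hF)]
      simp
    have h3 : (h / (2 * Real.pi * Complex.I) : ℂ) * (dslope φ 0 (qParam h (τ : ℂ)) *
        (qParam h (τ : ℂ) * (2 * Real.pi * Complex.I / h))) = F τ := by
      rw [← h2]
      field_simp
    rw [h3] at h1
    exact h1
  refine ⟨fun τ => g τ, ?_, ?_⟩
  · have hprim : IsPrim F (fun τ : ℍ => g τ) := by
      intro τ
      refine (hgd τ).congr_of_eventuallyEq ?_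
      have : ∀ᶠ z in 𝓝 (τ : ℂ), 0 < z.im :=
        (isOpen_lt continuous_const Complex.continuous_im).mem_nhds τ.im_pos
      filter_upwards [this] with z hz
      simp [Function.comp_apply, ofComplex_apply_of_im_pos hz]
    refine ⟨?_, hprim.mdiff, ?_⟩
    · intro τ
      simp only [hg]
      congr 2
      simp only [qParam, coe_vadd]
      rw [show 2 * (Real.pi : ℂ) * Complex.I * ((h : ℂ) + (τ : ℂ)) / h
        = 2 * Real.pi * Complex.I * τ / h + 2 * Real.pi * Complex.I by field_simp; ring]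
      rw [Complex.exp_add, Complex.exp_two_pi_mul_I, mul_one]
    · show Tendsto (fun τ : ℍ => g τ) atImInfty (𝓝 0)
      have hΨc : ContinuousAt Ψ 0 := (hΨ 0 (Metric.mem_ball_self one_pos)).continuousAt
      have h1 : Tendsto (fun τ : ℍ => qParam h (τ : ℂ)) atImInfty (𝓝 0) :=
        ((qParam_tendsto hh).mono_right nhdsWithin_le_nhds).comp tendsto_coe_atImInfty
      have h2 : Tendsto (fun τ : ℍ => Ψ (qParam h (τ : ℂ))) atImInfty (𝓝 0) := by
        have := hΨc.tendsto.comp h1
        rwa [hΨ0] at this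
      simpa [hg] using h2.const_mul (h / (2 * Real.pi * Complex.I) : ℂ)
  · intro τ
    refine (hgd τ).congr_of_eventuallyEq ?_
    have : ∀ᶠ z in 𝓝 (τ : ℂ), 0 < z.im :=
      (isOpen_lt continuous_const Complex.continuous_im).mem_nhds τ.im_pos
    filter_upwards [this] with z hz
    simp [Function.comp_apply, ofComplex_apply_of_im_pos hz]

theorem IsCP.exists_chain {h : ℝ} (hh : 0 < h) {F : ℍ → ℂ} (hF : IsCP h F) :
    ∃ G : ℕ → ℍ → ℂ, G 0 = F ∧ ∀ i, IsCP h (G i) ∧ IsPrim (G i) (G (i + 1)) := by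
  classical
  let step : {F : ℍ → ℂ // IsCP h F} → {F : ℍ → ℂ // IsCP h F} := fun F =>
    ⟨(IsCP.exists_prim hh F.2).choose, (IsCP.exists_prim hh F.2).choose_spec.1⟩
  have hstep : ∀ F : {F : ℍ → ℂ // IsCP h F}, IsPrim F.1 (step F).1 := fun F =>
    (IsCP.exists_prim hh F.2).choose_spec.2
  let G : ℕ → {F : ℍ → ℂ // IsCP h F} := fun n => Nat.rec ⟨F, hF⟩ (fun _ x => step x) n
  exact ⟨fun n => (G n).1, rfl, fun i => ⟨(G i).2, hstep (G i)⟩⟩

open Chain Function.Periodic in
theorem IsCP.isBigO_exp {h : ℝ} (hh : 0 < h) {F : ℍ → ℂ} (hF : IsCP h F) :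
    F =O[atImInfty] fun τ => Real.exp (-(2 * Real.pi / h) * τ.im) := by
  have h1 := exp_decay_of_zero_at_inf hh (periodic_comp hF) (eventually_differentiableAt_comp hF)
    (zeroAt_comp hF)
  have h2 := h1.comp_tendsto tendsto_coe_atImInfty
  refine (h2.congr' ?_ ?_)
  · exact Eventually.of_forall fun τ => by simp [Function.comp_apply]
  · exact Eventually.of_forall fun τ => by
      simp only [Function.comp_apply, coe_im]
      congr 1
      ring

theorem exists_prim_linpow {h : ℝ} (hh : 0 < h) (G : ℕ → ℍ → ℂ)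
    (hG : ∀ i, IsCP h (G i) ∧ IsPrim (G i) (G (i + 1))) (u v : ℂ) (n : ℕ) :
    ∃ ν, IsCuspPrim (linpow n u v (G 0)) 1 ν ∧
      ∀ τ : ℍ, u * (τ : ℂ) + v = 0 → ν τ = (-u) ^ n * (n.factorial : ℂ) * G (n + 1) τ := by
  induction n generalizing G with
  | zero =>
    refine ⟨G 1, ⟨?_, ?_⟩, ?_⟩
    · have : linpow 0 u v (G 0) = G 0 := by
        funext τ
        simp [linpow]
      rw [this]
      exact (hG 0).2
    · simp only [one_smul]
      exact (hG 1).1.zero.mono_left coneInfty_le_atImInfty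
    · intro τ _
      simp
  | succ n ih =>
    obtain ⟨ν', ⟨hν'1, hν'2⟩, hν'3⟩ := ih (fun i => G (i + 1)) (fun i => hG (i + 1))
    refine ⟨fun τ => (u * (τ : ℂ) + v) ^ (n + 1) * G 1 τ - ((n + 1 : ℕ) : ℂ) * u * ν' τ,
      ⟨?_, ?_⟩, ?_⟩
    · have h1 := IsPrim.linpow_mul (hG 0).2 u v n
      have h2 := (hν'1.const_smul (-(((n + 1 : ℕ) : ℂ) * u)))
      have h3 := h1.add h2
      have e1 : ((fun τ : ℍ => ((n + 1 : ℕ) : ℂ) * u * (u * (τ : ℂ) + v) ^ n * G (0 + 1) τ
          + (u * (τ : ℂ) + v) ^ (n + 1) * G 0 τ)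
          + (-(((n + 1 : ℕ) : ℂ) * u)) • linpow n u v (G (0 + 1))) = linpow (n + 1) u v (G 0) := by
        funext τ
        simp only [linpow, Pi.add_apply, Pi.smul_apply, smul_eq_mul]
        ring
      have e2 : ((fun τ : ℍ => (u * (τ : ℂ) + v) ^ (n + 1) * G (0 + 1) τ)
          + (-(((n + 1 : ℕ) : ℂ) * u)) • ν')
          = fun τ : ℍ => (u * (τ : ℂ) + v) ^ (n + 1) * G 1 τ - ((n + 1 : ℕ) : ℂ) * u * ν' τ := by
        funext τ
        simp only [Pi.add_apply, Pi.smul_apply, smul_eq_mul]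
        ring
      rw [e1, e2] at h3
      exact h3
    · simp only [one_smul] at hν'2 ⊢
      have hc : 0 < 2 * Real.pi / h := by positivity
      have h1 := tendsto_linpow_mul_coneInfty hc ((hG 1).1.isBigO_exp hh) u v (n + 1)
      have h2 := hν'2.const_mul (((n + 1 : ℕ) : ℂ) * u)
      simpa using h1.sub h2
    · intro τ hτ
      simp only [hτ, hν'3 τ hτ]
      rw [Nat.factorial_succ]
      push_cast
      ring

end Fermat.Agent.S22

end
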