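import Fermat.Agent.S22.Defs

set_option autoImplicit false

noncomputable section

namespace Fermat.Agent.S22

open UpperHalfPlane Filter Topology Matrix.SpecialLinearGroup CongruenceSubgroup
open scoped MatrixGroups ModularForm Manifold

/-! ## B. cone filter -/

theorem Cone.tendsto_ratio :
    Tendsto (fun z : ℍ => z.im / (1 + |z.re|)) coneInfty atTop := tendsto_comap

theorem Cone.ratio_le_im (z : ℍ) : z.im / (1 + |z.re|) ≤ z.im := by
  have h1 : (1 : ℝ) ≤ 1 + |z.re| := by linarith [abs_nonneg z.re]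
  exact div_le_self z.im_pos.le h1

theorem Cone.tendsto_im : Tendsto (fun z : ℍ => z.im) coneInfty atTop :=
  tendsto_atTop_mono Cone.ratio_le_im Cone.tendsto_ratio

theorem coneInfty_le_atImInfty : coneInfty ≤ atImInfty := by
  rw [atImInfty, ← tendsto_iff_comap]
  exact Cone.tendsto_im

instance coneInfty_neBot : coneInfty.NeBot := by
  rw [coneInfty]
  refine comap_neBot fun t ht => ?_
  obtain ⟨a, ha⟩ := mem_atTop_sets.mp ht
  have hpos : 0 < max a 1 := lt_of_lt_of_le one_pos (le_max_right _ _)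
  refine ⟨⟨⟨0, max a 1⟩, hpos⟩, ?_⟩
  have : (UpperHalfPlane.mk ⟨0, max a 1⟩ hpos).im / (1 + |(UpperHalfPlane.mk ⟨0, max a 1⟩ hpos).re|)
      = max a 1 := by
    have h1 : (UpperHalfPlane.mk ⟨0, max a 1⟩ hpos).im = max a 1 := rfl
    have h2 : (UpperHalfPlane.mk ⟨0, max a 1⟩ hpos).re = 0 := rfl
    rw [h1, h2]; simp
  rw [this]
  exact ha _ (le_max_left _ _)

theorem Cone.coe_smul_upper {b : GL (Fin 2) ℝ} (hb : b 1 0 = 0) (hdet : 0 < b.det.val) (τ : ℍ) :
    ((b • τ : ℍ) : ℂ) = ((b 0 0 / b 1 1 : ℝ) : ℂ) * τ + ((b 0 1 / b 1 1 : ℝ) : ℂ) := by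
  have hd : b 0 0 * b 1 1 > 0 := by
    have := hdet
    rw [Matrix.GeneralLinearGroup.val_det_apply, Matrix.det_fin_two] at this
    simpa [hb] using this
  have h11 : b 1 1 ≠ 0 := by
    rintro h; rw [h] at hd; simp at hd
  rw [coe_smul_of_det_pos hdet]
  simp only [num, denom, hb]
  have h11' : ((b 1 1 : ℝ) : ℂ) ≠ 0 := by exact_mod_cast h11
  push_cast
  simp only [zero_mul, zero_add]
  field_simp

theorem tendsto_smul_coneInfty {b : GL (Fin 2) ℝ} (hb : b 1 0 = 0) (hdet : 0 < b.det.val) :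
    Tendsto (fun τ : ℍ => b • τ) coneInfty coneInfty := by
  have hd : b 0 0 * b 1 1 > 0 := by
    have := hdet
    rw [Matrix.GeneralLinearGroup.val_det_apply, Matrix.det_fin_two] at this
    simpa [hb] using this
  have h11 : b 1 1 ≠ 0 := by
    rintro h; rw [h] at hd; simp at hd
  set r : ℝ := b 0 0 / b 1 1 with hr
  set s : ℝ := b 0 1 / b 1 1 with hs
  have hrpos : 0 < r := by
    have : r = b 0 0 * b 1 1 / (b 1 1) ^ 2 := by rw [hr]; field_simp
    rw [this]; positivity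
  have him : ∀ τ : ℍ, (b • τ).im = r * τ.im := by
    intro τ
    have := congrArg Complex.im (Cone.coe_smul_upper hb hdet τ)
    simpa using this
  have hre : ∀ τ : ℍ, (b • τ).re = r * τ.re + s := by
    intro τ
    have := congrArg Complex.re (Cone.coe_smul_upper hb hdet τ)
    simpa using this
  rw [coneInfty, tendsto_comap_iff]
  have hK : 0 < r / (1 + r + |s|) := by positivity
  refine tendsto_atTop_mono (f := fun τ : ℍ => r / (1 + r + |s|) * (τ.im / (1 + |τ.re|))) ?_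
    (Tendsto.const_mul_atTop hK tendsto_comap)
  intro τ
  simp only [Function.comp_apply, him, hre]
  have h1 : 0 < 1 + |r * τ.re + s| := by positivity
  have h2 : 0 < 1 + |τ.re| := by positivity
  have h3 : 0 < 1 + r + |s| := by positivity
  have h4 : 1 + |r * τ.re + s| ≤ (1 + r + |s|) * (1 + |τ.re|) := by
    have : |r * τ.re + s| ≤ r * |τ.re| + |s| := by
      calc |r * τ.re + s| ≤ |r * τ.re| + |s| := abs_add_le _ _
        _ = r * |τ.re| + |s| := by rw [abs_mul, abs_of_pos hrpos]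
    nlinarith [abs_nonneg τ.re, abs_nonneg s, mul_nonneg (abs_nonneg s) (abs_nonneg τ.re)]
  rw [div_mul_div_comm]
  exact div_le_div_of_nonneg_left (mul_pos hrpos τ.im_pos).le h1 h4

theorem tendsto_linpow_mul_coneInfty {G : ℍ → ℂ} {c : ℝ} (hc : 0 < c)
    (hG : G =O[atImInfty] fun τ => Real.exp (-c * τ.im)) (u v : ℂ) (n : ℕ) :
    Tendsto (fun τ : ℍ => (u * (τ : ℂ) + v) ^ n * G τ) coneInfty (𝓝 0) := by
  obtain ⟨C, hC⟩ := hG.bound
  have hC' : ∀ᶠ τ : ℍ in coneInfty, ‖G τ‖ ≤ C * ‖Real.exp (-c * τ.im)‖ :=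
    coneInfty_le_atImInfty hC
  have hcone : ∀ᶠ τ : ℍ in coneInfty, 1 ≤ τ.im / (1 + |τ.re|) :=
    Cone.tendsto_ratio.eventually_ge_atTop 1
  -- the dominating function
  have hlim : Tendsto (fun τ : ℍ => (2 * ‖u‖ + ‖v‖) ^ n * |C| *
      (τ.im ^ n * Real.exp (-c * τ.im))) coneInfty (𝓝 0) := by
    have h0 : Tendsto (fun y : ℝ => y ^ n * Real.exp (-c * y)) atTop (𝓝 0) := by
      have h00 := ((Real.tendsto_pow_mul_exp_neg_atTop_nhds_zero n).comp
        (tendsto_id.const_mul_atTop hc)).const_mul ((c ^ n)⁻¹)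
      rw [mul_zero] at h00
      refine h00.congr fun y => ?_
      have hcn : c ^ n ≠ 0 := pow_ne_zero _ hc.ne'
      simp only [Function.comp_apply, id, mul_pow, neg_mul]
      field_simp
    have := (h0.comp Cone.tendsto_im).const_mul ((2 * ‖u‖ + ‖v‖) ^ n * |C|)
    simpa using this
  refine squeeze_zero_norm' ?_ hlim
  filter_upwards [hC', hcone] with τ h1 h2
  have hden : 0 < 1 + |τ.re| := by positivity
  have h3 : 1 + |τ.re| ≤ τ.im := by
    rwa [le_div_iff₀ hden, one_mul] at h2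
  have him1 : 1 ≤ τ.im := by linarith [abs_nonneg τ.re]
  have hnorm : ‖(τ : ℂ)‖ ≤ 2 * τ.im := by
    calc ‖(τ : ℂ)‖ ≤ |(τ : ℂ).re| + |(τ : ℂ).im| := Complex.norm_le_abs_re_add_abs_im _
      _ = |τ.re| + τ.im := by
          rw [UpperHalfPlane.coe_im, UpperHalfPlane.coe_re, abs_of_pos τ.im_pos]
      _ ≤ 2 * τ.im := by linarith
  have hlin : ‖u * (τ : ℂ) + v‖ ≤ (2 * ‖u‖ + ‖v‖) * τ.im := by
    calc ‖u * (τ : ℂ) + v‖ ≤ ‖u‖ * ‖(τ : ℂ)‖ + ‖v‖ := by
          refine (norm_add_le _ _).trans ?_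
          rw [norm_mul]
      _ ≤ ‖u‖ * (2 * τ.im) + ‖v‖ * τ.im := by
          have := mul_le_mul_of_nonneg_left hnorm (norm_nonneg u)
          have := mul_le_mul_of_nonneg_left him1 (norm_nonneg v)
          linarith
      _ = (2 * ‖u‖ + ‖v‖) * τ.im := by ring
  have hexp : ‖Real.exp (-c * τ.im)‖ = Real.exp (-c * τ.im) := by
    rw [Real.norm_eq_abs, abs_of_pos (Real.exp_pos _)]
  rw [hexp] at h1
  have h1' : ‖G τ‖ ≤ |C| * Real.exp (-c * τ.im) :=
    h1.trans (mul_le_mul_of_nonneg_right (le_abs_self C) (Real.exp_pos _).le)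
  calc ‖(u * (τ : ℂ) + v) ^ n * G τ‖ = ‖u * (τ : ℂ) + v‖ ^ n * ‖G τ‖ := by
        rw [norm_mul, norm_pow]
    _ ≤ ((2 * ‖u‖ + ‖v‖) * τ.im) ^ n * (|C| * Real.exp (-c * τ.im)) := by
        gcongr
    _ = (2 * ‖u‖ + ‖v‖) ^ n * |C| * (τ.im ^ n * Real.exp (-c * τ.im)) := by
        rw [mul_pow]; ring

end Fermat.Agent.S22

end
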