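import Fermat.Agent.S22.Defs

set_option autoImplicit false

noncomputable section

namespace Fermat.Agent.S22

open UpperHalfPlane Filter Topology Matrix.SpecialLinearGroup CongruenceSubgroup
open scoped MatrixGroups ModularForm Manifold

/-- integer version: every pair `(a, c) ≠ 0` is `e • (first column of some element of SL₂(ℤ))`. -/
theorem Decomp.exists_SL2_col (a c : ℤ) :
    ∃ g : SL(2, ℤ), - g 1 0 * a + g 0 0 * c = 0 := by
  by_cases h : a = 0 ∧ c = 0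
  · exact ⟨1, by simp [h.1, h.2]⟩
  · have hg : (Int.gcd a c : ℤ) ≠ 0 := by
      intro h0
      apply h
      have : Int.gcd a c = 0 := by exact_mod_cast h0
      exact Int.gcd_eq_zero_iff.mp this
    obtain ⟨a', ha'⟩ : (Int.gcd a c : ℤ) ∣ a := Int.gcd_dvd_left a c
    obtain ⟨c', hc'⟩ : (Int.gcd a c : ℤ) ∣ c := Int.gcd_dvd_right a c
    have hcop : IsCoprime a' c' := by
      refine ⟨Int.gcdA a c, Int.gcdB a c, ?_⟩
      have h1 := Int.gcd_eq_gcd_ab a c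
      apply mul_left_cancel₀ hg
      calc (Int.gcd a c : ℤ) * (Int.gcdA a c * a' + Int.gcdB a c * c')
          = ((Int.gcd a c : ℤ) * a') * Int.gcdA a c + ((Int.gcd a c : ℤ) * c') * Int.gcdB a c := by
            ring
        _ = a * Int.gcdA a c + c * Int.gcdB a c := by rw [← ha', ← hc']
        _ = (Int.gcd a c : ℤ) * 1 := by rw [← h1, mul_one]
    obtain ⟨g, hg0, hg1⟩ := hcop.exists_SL2_col 0
    refine ⟨g, ?_⟩
    rw [hg0, hg1]
    calc -c' * a + a' * c = -c' * ((Int.gcd a c : ℤ) * a') + a' * ((Int.gcd a c : ℤ) * c') := by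
          rw [← ha', ← hc']
      _ = 0 := by ring

theorem exists_SL2_mul_upper {α : GL (Fin 2) ℝ} (hα : IsIntMat α) (hdet : 0 < α.det.val)
    (g : SL(2, ℤ)) :
    ∃ (g'' : SL(2, ℤ)) (b : GL (Fin 2) ℝ), b 1 0 = 0 ∧ 0 < b.det.val ∧
      α * mapGL ℝ g = mapGL ℝ g'' * b := by
  obtain ⟨a, b, c, d, hα⟩ := hα
  obtain ⟨g'', hg''⟩ := Decomp.exists_SL2_col (a * g 0 0 + b * g 1 0) (c * g 0 0 + d * g 1 0)
  refine ⟨g'', (mapGL ℝ g'')⁻¹ * (α * mapGL ℝ g), ?_, ?_, ?_⟩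
  · have h1 : ((mapGL ℝ g'')⁻¹ : GL (Fin 2) ℝ) = mapGL ℝ g''⁻¹ := by rw [map_inv]
    rw [h1]
    have h2 : (((mapGL ℝ g''⁻¹ * (α * mapGL ℝ g) : GL (Fin 2) ℝ)) : Matrix (Fin 2) (Fin 2) ℝ) 1 0
        = ((- g'' 1 0 * (a * g 0 0 + b * g 1 0) + g'' 0 0 * (c * g 0 0 + d * g 1 0) : ℤ) : ℝ) := by
      have e10 : ((mapGL ℝ g''⁻¹ : GL (Fin 2) ℝ) : Matrix (Fin 2) (Fin 2) ℝ) 1 0
          = ((- g'' 1 0 : ℤ) : ℝ) := by
        rw [Matrix.SpecialLinearGroup.mapGL_coe_matrix, Matrix.SpecialLinearGroup.map_apply_coe,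
          Matrix.SpecialLinearGroup.coe_inv, Matrix.adjugate_fin_two]
        simp
      have e11 : ((mapGL ℝ g''⁻¹ : GL (Fin 2) ℝ) : Matrix (Fin 2) (Fin 2) ℝ) 1 1
          = ((g'' 0 0 : ℤ) : ℝ) := by
        rw [Matrix.SpecialLinearGroup.mapGL_coe_matrix, Matrix.SpecialLinearGroup.map_apply_coe,
          Matrix.SpecialLinearGroup.coe_inv, Matrix.adjugate_fin_two]
        simp
      rw [Matrix.GeneralLinearGroup.coe_mul, Matrix.GeneralLinearGroup.coe_mul, hα]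
      rw [Matrix.mul_apply, Fin.sum_univ_two, e10, e11, Matrix.mul_apply, Matrix.mul_apply,
        Fin.sum_univ_two, Fin.sum_univ_two]
      simp [Matrix.SpecialLinearGroup.mapGL_coe_matrix]
    rw [h2, hg'']
    simp
  · simp only [map_mul, map_inv, Units.val_mul]
    simpa using hdet
  · group

end Fermat.Agent.S22

end
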