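import Fermat.Statements.S22

/-!
# S22: basic definitions (cone filter at `i∞`, primitives on `ℍ`, periods between cusps)
-/

set_option autoImplicit false

noncomputable section

namespace Fermat.Agent.S22

open UpperHalfPlane Filter Topology
open scoped MatrixGroups ModularForm Manifold

/-- A filter at `i∞`, finer than `atImInfty`: `im z / (1 + |re z|) → ∞`. -/
def coneInfty : Filter ℍ := Filter.comap (fun z : ℍ => z.im / (1 + |z.re|)) atTop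

/-- `μ` is a holomorphic primitive of `H` on the upper half plane. -/
def IsPrim (H μ : ℍ → ℂ) : Prop :=
  ∀ τ : ℍ, HasDerivAt (μ ∘ ofComplex) (H τ) (τ : ℂ)

/-- `μ` is the primitive of `H` which vanishes at the cusp `g • ∞`. -/
def IsCuspPrim (H : ℍ → ℂ) (g : GL (Fin 2) ℝ) (μ : ℍ → ℂ) : Prop :=
  IsPrim H μ ∧ Tendsto (fun w : ℍ => μ (g • w)) coneInfty (𝓝 0)

/-- `r = ∫_{g∞}^{g'∞} H(τ) dτ`. -/
def IsPer (H : ℍ → ℂ) (g g' : GL (Fin 2) ℝ) (r : ℂ) : Prop :=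
  ∃ μ μ' : ℍ → ℂ, IsCuspPrim H g μ ∧ IsCuspPrim H g' μ' ∧ ∀ τ, μ τ - μ' τ = r

/-- periodic, holomorphic, vanishing at `i∞`. -/
structure IsCP (h : ℝ) (F : ℍ → ℂ) : Prop where
  per : ∀ τ : ℍ, F (h +ᵥ τ) = F τ
  holo : MDiff F
  zero : IsZeroAtImInfty F

/-- The integrand `τ ^ j * f τ`. -/
def mono (j : ℕ) (f : ℍ → ℂ) : ℍ → ℂ := fun τ => (τ : ℂ) ^ j * f τ

/-- The integrand `(u τ + v) ^ n * f τ`. -/
def linpow (n : ℕ) (u v : ℂ) (f : ℍ → ℂ) : ℍ → ℂ := fun τ => (u * (τ : ℂ) + v) ^ n * f τ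

/-- A real invertible matrix with integer entries. -/
def IsIntMat (α : GL (Fin 2) ℝ) : Prop :=
  ∃ a b c d : ℤ, (α : Matrix (Fin 2) (Fin 2) ℝ) = !![(a : ℝ), (b : ℝ); (c : ℝ), (d : ℝ)]

end Fermat.Agent.S22

end
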