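import Fermat.Agent.S22.Defs
import Fermat.Prelude.Thm_Subgroup_IsArithmetic_exists_nat_mem_strictPeriods_conj

set_option autoImplicit false

noncomputable section

namespace Fermat.Agent.S22

open UpperHalfPlane Filter Topology Matrix.SpecialLinearGroup CongruenceSubgroup
open scoped MatrixGroups ModularForm Manifold

theorem exists_isCP_slash (N : ℕ) [NeZero N] (k : ℤ) (f : CuspForm (Gamma0 N) k) :
    ∃ h : ℝ, 0 < h ∧ ∀ g : SL(2, ℤ), IsCP h (⇑f ∣[k] (mapGL ℝ g)) := by
  obtain ⟨M, hM, hper⟩ := Subgroup.IsArithmetic.exists_nat_mem_strictPeriods_conj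
    (Subgroup.map (mapGL ℝ) (Gamma0 N))
  refine ⟨M, by exact_mod_cast hM, fun g => ?_⟩
  refine ⟨fun τ => ?_, ?_, ?_⟩
  · have h1 := hper g⁻¹
    rw [map_inv] at h1
    exact SlashInvariantForm.vAdd_apply_of_mem_strictPeriods
      (CuspForm.translate f (mapGL ℝ g)) τ h1
  · exact (CuspForm.translate f (mapGL ℝ g)).holo'
  · exact CuspFormClass.zero_at_infty_slash f g

end Fermat.Agent.S22

end
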