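import Fermat.Agent.S22.Api

set_option autoImplicit false

noncomputable section

namespace Fermat.Agent.S22

open UpperHalfPlane Filter Topology Matrix.SpecialLinearGroup CongruenceSubgroup
open scoped MatrixGroups ModularForm Manifold

theorem twofactor_slash (n a b : ℕ) (hab : a + b = n) (u₁ v₁ u₂ v₂ : ℂ) (f : ℍ → ℂ)
    (γ : GL (Fin 2) ℝ) (hγ : 0 < γ.det.val) :
    (fun τ : ℍ => (u₁ * (τ : ℂ) + v₁) ^ a * (u₂ * (τ : ℂ) + v₂) ^ b * (f ∣[(n : ℤ) + 2] γ) τ) =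
    (fun τ : ℍ => ((u₁ * γ 1 1 - v₁ * γ 1 0) * (τ : ℂ) + (- u₁ * γ 0 1 + v₁ * γ 0 0)) ^ a *
      ((u₂ * γ 1 1 - v₂ * γ 1 0) * (τ : ℂ) + (- u₂ * γ 0 1 + v₂ * γ 0 0)) ^ b * f τ)
        ∣[(2 : ℤ)] γ := by
  funext τ
  have hσ : σ γ = .refl ℝ ℂ := by rw [σ, if_pos hγ]
  rw [ModularForm.slash_apply, ModularForm.slash_apply, hσ]
  simp only [ContinuousAlgEquiv.refl_apply]
  rw [abs_of_pos hγ]
  have hD : ((γ.det.val : ℝ) : ℂ) = γ 0 0 * γ 1 1 - γ 0 1 * γ 1 0 := by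
    rw [Matrix.GeneralLinearGroup.val_det_apply, Matrix.det_fin_two]
    push_cast
    ring
  have hz : ((γ • τ : ℍ) : ℂ) = num γ τ / denom γ τ := coe_smul_of_det_pos hγ τ
  have hden : denom γ τ ≠ 0 := denom_ne_zero γ τ
  have key : ∀ u v : ℂ, (u * γ 1 1 - v * γ 1 0) * ((γ • τ : ℍ) : ℂ) + (-u * γ 0 1 + v * γ 0 0)
      = ((γ.det.val : ℝ) : ℂ) * (u * τ + v) / denom γ τ := by
    intro u v
    rw [hz, hD, eq_div_iff hden, add_mul, mul_assoc, div_mul_cancel₀ _ hden]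
    simp only [num, denom]
    ring
  rw [key, key]
  have e1 : (n : ℤ) + 2 - 1 = ((n + 1 : ℕ) : ℤ) := by push_cast; ring
  have e2 : (n : ℤ) + 2 = ((n + 2 : ℕ) : ℤ) := by push_cast; ring
  have e3 : (2 : ℤ) - 1 = ((1 : ℕ) : ℤ) := by norm_num
  have e4 : (2 : ℤ) = ((2 : ℕ) : ℤ) := by norm_num
  rw [e1, e2, e3, zpow_neg, zpow_natCast, zpow_natCast, zpow_natCast]
  conv_rhs => rw [e4, zpow_neg, zpow_natCast]
  subst hab
  rw [div_pow, div_pow, mul_pow, mul_pow]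
  field_simp
  ring

theorem linpow_slash (n : ℕ) (u v : ℂ) (f : ℍ → ℂ) (γ : GL (Fin 2) ℝ) (hγ : 0 < γ.det.val) :
    linpow n u v (f ∣[(n : ℤ) + 2] γ) =
      (linpow n (u * γ 1 1 - v * γ 1 0) (- u * γ 0 1 + v * γ 0 0) f) ∣[(2 : ℤ)] γ := by
  have := twofactor_slash n n 0 (by simp) u v 0 0 f γ hγ
  simp only [pow_zero, mul_one] at this
  exact this

theorem exists_int_expansion (a b c d : ℤ) (j n : ℕ) (hj : j ≤ n) :
    ∃ e : ℕ → ℤ, ∀ z : ℂ, ((a : ℂ) * z + b) ^ j * ((c : ℂ) * z + d) ^ (n - j) =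
      ∑ i ∈ Finset.range (n + 1), (e i : ℂ) * z ^ i := by
  classical
  set P : Polynomial ℤ := (Polynomial.C a * Polynomial.X + Polynomial.C b) ^ j *
    (Polynomial.C c * Polynomial.X + Polynomial.C d) ^ (n - j) with hP
  have hdeg : P.natDegree < n + 1 := by
    have h1 : ∀ x y : ℤ, (Polynomial.C x * Polynomial.X + Polynomial.C y).natDegree ≤ 1 :=
      fun x y => Polynomial.natDegree_linear_le
    have h2 : P.natDegree ≤ j * 1 + (n - j) * 1 := by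
      refine Polynomial.natDegree_mul_le.trans (add_le_add ?_ ?_)
      · exact Polynomial.natDegree_pow_le.trans (Nat.mul_le_mul_left _ (h1 a b))
      · exact Polynomial.natDegree_pow_le.trans (Nat.mul_le_mul_left _ (h1 c d))
    omega
  refine ⟨fun i => P.coeff i, fun z => ?_⟩
  have h := Polynomial.aeval_eq_sum_range' hdeg z
  have h' : Polynomial.aeval z P = ((a : ℂ) * z + b) ^ j * ((c : ℂ) * z + d) ^ (n - j) := by
    simp [hP]
  rw [← h', h]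
  refine Finset.sum_congr rfl fun i _ => ?_
  simp [zsmul_eq_mul]

theorem exists_int_coeffs_slash_cuspPrim (n : ℕ) {α : GL (Fin 2) ℝ} (hα : IsIntMat α)
    (hdet : 0 < α.det.val) (i : ℕ) (hi : i ≤ n) :
    ∃ e : ℕ → ℤ, ∀ (f : ℍ → ℂ) (g : GL (Fin 2) ℝ) (μ : ℕ → ℍ → ℂ),
      (∀ l ≤ n, IsCuspPrim (mono l f) (α * g) (μ l)) →
      IsCuspPrim (mono i (f ∣[(n : ℤ) + 2] α)) g
        (fun w => ∑ l ∈ Finset.range (n + 1), (e l : ℂ) * μ l (α • w)) := by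
  obtain ⟨a, b, c, d, hmat⟩ := hα
  have h00 : α 0 0 = (a : ℝ) := by
    have := congrFun (congrFun hmat 0) 0; simpa using this
  have h01 : α 0 1 = (b : ℝ) := by
    have := congrFun (congrFun hmat 0) 1; simpa using this
  have h10 : α 1 0 = (c : ℝ) := by
    have := congrFun (congrFun hmat 1) 0; simpa using this
  have h11 : α 1 1 = (d : ℝ) := by
    have := congrFun (congrFun hmat 1) 1; simpa using this
  obtain ⟨e, he⟩ := exists_int_expansion d (-b) (-c) a i n hi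
  refine ⟨e, fun f g μ hμ => ?_⟩
  have h1 : mono i (f ∣[(n : ℤ) + 2] α) =
      (∑ l ∈ Finset.range (n + 1), (e l : ℂ) • mono l f) ∣[(2 : ℤ)] α := by
    have := twofactor_slash n i (n - i) (by omega) 1 0 0 1 f α hdet
    have hL : (fun τ : ℍ => ((1 : ℂ) * (τ : ℂ) + 0) ^ i * ((0 : ℂ) * (τ : ℂ) + 1) ^ (n - i) *
        (f ∣[(n : ℤ) + 2] α) τ) = mono i (f ∣[(n : ℤ) + 2] α) := by
      funext τ; simp [mono]
    rw [hL] at this
    rw [this]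
    congr 1
    funext τ
    simp only [Finset.sum_apply, Pi.smul_apply, smul_eq_mul, mono]
    have h2 := he (τ : ℂ)
    rw [h00, h01, h10, h11]
    have h3 : (((1 : ℂ) * ((d : ℝ) : ℂ) - 0 * ((c : ℝ) : ℂ)) * (τ : ℂ) +
        (-(1 : ℂ) * ((b : ℝ) : ℂ) + 0 * ((a : ℝ) : ℂ))) = ((d : ℂ) * (τ : ℂ) + ((-b : ℤ) : ℂ)) := by
      push_cast; ring
    have h4 : (((0 : ℂ) * ((d : ℝ) : ℂ) - 1 * ((c : ℝ) : ℂ)) * (τ : ℂ) +
        (-(0 : ℂ) * ((b : ℝ) : ℂ) + 1 * ((a : ℝ) : ℂ))) = (((-c : ℤ) : ℂ) * (τ : ℂ) + (a : ℂ)) := by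
      push_cast; ring
    rw [h3, h4, h2, Finset.sum_mul]
    refine Finset.sum_congr rfl fun l _ => ?_
    ring
  rw [h1]
  have h5 : IsCuspPrim (∑ l ∈ Finset.range (n + 1), (e l : ℂ) • mono l f) (α * g)
      (∑ l ∈ Finset.range (n + 1), (e l : ℂ) • μ l) :=
    IsCuspPrim.sum _ fun l hl =>
      (hμ l (Nat.lt_succ_iff.mp (Finset.mem_range.mp hl))).const_smul _
  have h6 := h5.slash hdet
  convert h6 using 1
  funext w
  simp [Finset.sum_apply]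

theorem exists_int_coeffs_slash (n : ℕ) {α : GL (Fin 2) ℝ} (hα : IsIntMat α)
    (hdet : 0 < α.det.val) (i : ℕ) (hi : i ≤ n) :
    ∃ e : ℕ → ℤ, ∀ (f : ℍ → ℂ) (g g' : GL (Fin 2) ℝ) (r : ℕ → ℂ),
      (∀ l ≤ n, IsPer (mono l f) (α * g) (α * g') (r l)) →
      IsPer (mono i (f ∣[(n : ℤ) + 2] α)) g g' (∑ l ∈ Finset.range (n + 1), (e l : ℂ) * r l) := by
  obtain ⟨e, he⟩ := exists_int_coeffs_slash_cuspPrim n hα hdet i hi
  refine ⟨e, fun f g g' r hr => ?_⟩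
  have hex : ∀ l, ∃ μ μ' : ℍ → ℂ, l ≤ n → (IsCuspPrim (mono l f) (α * g) μ ∧
      IsCuspPrim (mono l f) (α * g') μ' ∧ ∀ τ, μ τ - μ' τ = r l) := by
    intro l
    by_cases hl : l ≤ n
    · obtain ⟨μ, μ', h1, h2, h3⟩ := hr l hl
      exact ⟨μ, μ', fun _ => ⟨h1, h2, h3⟩⟩
    · exact ⟨0, 0, fun h => absurd h hl⟩
  choose μ μ' hμ using hex
  refine ⟨_, _, he f g μ fun l hl => (hμ l hl).1, he f g' μ' fun l hl => (hμ l hl).2.1, fun τ => ?_⟩
  rw [← Finset.sum_sub_distrib]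
  refine Finset.sum_congr rfl fun l hl => ?_
  rw [← mul_sub, (hμ l (Nat.lt_succ_iff.mp (Finset.mem_range.mp hl))).2.2]

end Fermat.Agent.S22

end
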