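import Fermat.Agent.S22.Chain
import Fermat.Agent.S22.Slash
import Fermat.Agent.S22.FormsCP

set_option autoImplicit false

noncomputable section

namespace Fermat.Agent.S22

open UpperHalfPlane Filter Topology Matrix.SpecialLinearGroup CongruenceSubgroup
open scoped MatrixGroups ModularForm Manifold

theorem Forms.isIntMat_mapGL (g : SL(2, ℤ)) : IsIntMat (mapGL ℝ g) := by
  refine ⟨g 0 0, g 0 1, g 1 0, g 1 1, ?_⟩
  ext i j
  fin_cases i <;> fin_cases j <;> simp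

theorem Forms.det_mapGL_pos (g : SL(2, ℤ)) : 0 < (mapGL ℝ g).det.val := by
  simp

theorem Forms.linpow_one_zero (l : ℕ) (F : ℍ → ℂ) : linpow l 1 0 F = mono l F := by
  funext τ
  simp [linpow, mono]

theorem Forms.mono_add (j : ℕ) (f g : ℍ → ℂ) : mono j (f + g) = mono j f + mono j g := by
  funext τ
  simp [mono, mul_add]

theorem Forms.mono_smul (j : ℕ) (c : ℂ) (f : ℍ → ℂ) : mono j (c • f) = c • mono j f := by
  funext τ
  simp [mono]
  ring

theorem exists_cuspPrim_mono (N : ℕ) [NeZero N] (n : ℕ) (f : CuspForm (Gamma0 N) ((n : ℤ) + 2))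
    (j : ℕ) (hj : j ≤ n) (g : SL(2, ℤ)) : ∃ μ, IsCuspPrim (mono j f) (mapGL ℝ g) μ := by
  obtain ⟨h, hh, hCP⟩ := exists_isCP_slash N _ f
  obtain ⟨G, hG0, hG⟩ := (hCP g).exists_chain hh
  obtain ⟨e, he⟩ := exists_int_coeffs_slash_cuspPrim n (Forms.isIntMat_mapGL g⁻¹)
    (Forms.det_mapGL_pos g⁻¹) j hj
  have hex : ∀ l : ℕ, ∃ ν, IsCuspPrim (mono l (⇑f ∣[(n : ℤ) + 2] (mapGL ℝ g))) 1 ν := by
    intro l
    obtain ⟨ν, hν, -⟩ := exists_prim_linpow hh G hG 1 0 l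
    rw [hG0, Forms.linpow_one_zero] at hν
    exact ⟨ν, hν⟩
  choose ν hν using hex
  have hone : mapGL ℝ g⁻¹ * mapGL ℝ g = 1 := by
    rw [← map_mul, inv_mul_cancel, map_one]
  have hone' : mapGL ℝ g * mapGL ℝ g⁻¹ = 1 := by
    rw [← map_mul, mul_inv_cancel, map_one]
  have key := he (⇑f ∣[(n : ℤ) + 2] (mapGL ℝ g)) (mapGL ℝ g) ν (fun l _ => by
    rw [hone]; exact hν l)
  rw [← SlashAction.slash_mul, hone', SlashAction.slash_one] at key
  exact ⟨_, key⟩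

theorem exists_perFunctional (N : ℕ) [NeZero N] (n : ℕ) (j : ℕ) (hj : j ≤ n) (g g' : SL(2, ℤ)) :
    ∃ ξ : Module.Dual ℂ (CuspForm (Gamma0 N) ((n : ℤ) + 2)),
      ∀ f : CuspForm (Gamma0 N) ((n : ℤ) + 2),
        IsPer (mono j f) (mapGL ℝ g) (mapGL ℝ g') (ξ f) := by
  have hex : ∀ f : CuspForm (Gamma0 N) ((n : ℤ) + 2),
      ∃ r : ℂ, IsPer (mono j f) (mapGL ℝ g) (mapGL ℝ g') r := by
    intro f
    obtain ⟨μ, hμ⟩ := exists_cuspPrim_mono N n f j hj g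
    obtain ⟨μ', hμ'⟩ := exists_cuspPrim_mono N n f j hj g'
    exact ⟨_, IsPer.of_cuspPrim hμ hμ'⟩
  choose r hr using hex
  refine ⟨{ toFun := r, map_add' := fun f₁ f₂ => ?_, map_smul' := fun c f => ?_ }, hr⟩
  · have h1 := (hr f₁).add (hr f₂)
    rw [← Forms.mono_add] at h1
    exact (hr (f₁ + f₂)).unique h1
  · have h1 := (hr f).const_smul c
    rw [← Forms.mono_smul] at h1
    exact (hr (c • f)).unique h1

/-- the period functional `f ↦ ∫_{g∞}^{g'∞} τ^j f(τ) dτ` (junk for `j > n`). -/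
def per (N : ℕ) [NeZero N] (n : ℕ) (j : ℕ) (g g' : SL(2, ℤ)) :
    Module.Dual ℂ (CuspForm (Gamma0 N) ((n : ℤ) + 2)) :=
  if hj : j ≤ n then (exists_perFunctional N n j hj g g').choose else 0

theorem per_spec (N : ℕ) [NeZero N] (n : ℕ) (j : ℕ) (hj : j ≤ n) (g g' : SL(2, ℤ))
    (f : CuspForm (Gamma0 N) ((n : ℤ) + 2)) :
    IsPer (mono j f) (mapGL ℝ g) (mapGL ℝ g') (per N n j g g' f) := by
  rw [per, dif_pos hj]
  exact (exists_perFunctional N n j hj g g').choose_spec f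

end Fermat.Agent.S22

end
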