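import Fermat.Agent.S22.Forms

set_option autoImplicit false

noncomputable section

namespace Fermat.Agent.S22

open UpperHalfPlane Filter Topology Matrix.SpecialLinearGroup CongruenceSubgroup
open scoped MatrixGroups ModularForm Manifold

/-- the lattice of periods -/
def lattice (N : ℕ) [NeZero N] (n : ℕ) :
    Submodule ℤ (Module.Dual ℂ (CuspForm (Gamma0 N) ((n : ℤ) + 2))) :=
  Submodule.span ℤ (Set.range fun x : Fin (n + 1) × (SL(2, ℤ) ⧸ Gamma0 N) =>
    per N n x.1 (x.2.out)⁻¹ ((x.2.out)⁻¹ * ModularGroup.S))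

theorem lattice_fg (N : ℕ) [NeZero N] (n : ℕ) : (lattice N n).FG := by
  have : Finite (SL(2, ℤ) ⧸ Gamma0 N) := Subgroup.finite_quotient_of_finiteIndex
  exact Submodule.fg_span (Set.finite_range _)

/-- characterisation of `per` -/
theorem Lattice.per_eq_of_isPer (N : ℕ) [NeZero N] (n : ℕ) (j : ℕ) (hj : j ≤ n) (g g' : SL(2, ℤ))
    (ξ : Module.Dual ℂ (CuspForm (Gamma0 N) ((n : ℤ) + 2)))
    (h : ∀ f : CuspForm (Gamma0 N) ((n : ℤ) + 2),
      IsPer (mono j f) (mapGL ℝ g) (mapGL ℝ g') (ξ f)) : per N n j g g' = ξ := by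
  ext f
  exact (per_spec N n j hj g g' f).unique (h f)

theorem Lattice.per_trans (N : ℕ) [NeZero N] (n : ℕ) (j : ℕ) (hj : j ≤ n) (g g' g'' : SL(2, ℤ)) :
    per N n j g g'' = per N n j g g' + per N n j g' g'' := by
  apply Lattice.per_eq_of_isPer N n j hj
  intro f
  exact (per_spec N n j hj g g' f).trans (per_spec N n j hj g' g'' f)

theorem Lattice.per_symm (N : ℕ) [NeZero N] (n : ℕ) (j : ℕ) (hj : j ≤ n) (g g' : SL(2, ℤ)) :
    per N n j g' g = - per N n j g g' := by
  apply Lattice.per_eq_of_isPer N n j hj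
  intro f
  exact (per_spec N n j hj g g' f).symm

theorem Lattice.per_self (N : ℕ) [NeZero N] (n : ℕ) (j : ℕ) (hj : j ≤ n) (g : SL(2, ℤ)) :
    per N n j g g = 0 := by
  have h := Lattice.per_trans N n j hj g g g
  exact left_eq_add.mp h

theorem Lattice.per_mul_T (N : ℕ) [NeZero N] (n : ℕ) (j : ℕ) (hj : j ≤ n) (g : SL(2, ℤ)) :
    per N n j g (g * ModularGroup.T) = 0 := by
  apply Lattice.per_eq_of_isPer N n j hj
  intro f
  have h := per_spec N n j hj g g f
  rw [Lattice.per_self N n j hj g] at h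
  have h2 := h.mul_right (b := 1) (b' := mapGL ℝ ModularGroup.T) (by simp) (by simp)
    (by simp [Matrix.SpecialLinearGroup.mapGL_coe_matrix, ModularGroup.coe_T]) (by simp)
  rw [mul_one, ← map_mul] at h2
  exact h2

/-- invariance under `Γ₀(N)` up to integral linear combinations -/
theorem Lattice.per_mem_span (N : ℕ) [NeZero N] (n : ℕ) (i : ℕ) (hi : i ≤ n)
    (γ : SL(2, ℤ)) (hγ : γ ∈ Gamma0 N) (g g' : SL(2, ℤ))
    (L : Submodule ℤ (Module.Dual ℂ (CuspForm (Gamma0 N) ((n : ℤ) + 2))))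
    (hL : ∀ l ≤ n, per N n l (γ * g) (γ * g') ∈ L) : per N n i g g' ∈ L := by
  have hint : IsIntMat (mapGL ℝ γ) := by
    refine ⟨γ 0 0, γ 0 1, γ 1 0, γ 1 1, ?_⟩
    ext a b
    fin_cases a <;> fin_cases b <;> simp [Matrix.SpecialLinearGroup.mapGL_coe_matrix]
  obtain ⟨e, he⟩ := exists_int_coeffs_slash n hint (by simp) i hi
  have key : per N n i g g' = ∑ l ∈ Finset.range (n + 1), e l • per N n l (γ * g) (γ * g') := by
    apply Lattice.per_eq_of_isPer N n i hi
    intro f
    have h1 := he (⇑f) (mapGL ℝ g) (mapGL ℝ g') (fun l => per N n l (γ * g) (γ * g') f) (by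
      intro l hl
      have := per_spec N n l hl (γ * g) (γ * g') f
      rwa [map_mul, map_mul] at this)
    have h2 : (⇑f : ℍ → ℂ) ∣[(n : ℤ) + 2] (mapGL ℝ γ) = ⇑f :=
      SlashInvariantFormClass.slash_action_eq f (mapGL ℝ γ) (Subgroup.mem_map_of_mem (mapGL ℝ) hγ)
    rw [h2] at h1
    convert h1 using 1
    simp [LinearMap.sum_apply]
  rw [key]
  refine Submodule.sum_mem _ fun l hl => Submodule.smul_mem _ _ (hL l ?_)
  have := Finset.mem_range.mp hl
  omega

theorem Lattice.per_mul_S (N : ℕ) [NeZero N] (n : ℕ) (j : ℕ) (hj : j ≤ n) (h : SL(2, ℤ)) :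
    per N n j h (h * ModularGroup.S) ∈ lattice N n := by
  -- `h⁻¹ = x.out * γ`
  set x : SL(2, ℤ) ⧸ Gamma0 N := QuotientGroup.mk h⁻¹ with hx
  set γ : SL(2, ℤ) := (x.out)⁻¹ * h⁻¹ with hγdef
  have hγ : γ ∈ Gamma0 N := by
    rw [hγdef, ← QuotientGroup.eq, hx]
    exact QuotientGroup.out_eq' _
  apply Lattice.per_mem_span N n j hj γ hγ
  intro l hl
  have e1 : γ * h = (x.out)⁻¹ := by rw [hγdef]; group
  rw [← mul_assoc, e1]
  exact Submodule.subset_span ⟨(⟨l, by omega⟩, x), rfl⟩

theorem per_mem_lattice (N : ℕ) [NeZero N] (n : ℕ) (j : ℕ) (hj : j ≤ n) (g g' : SL(2, ℤ)) :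
    per N n j g g' ∈ lattice N n := by
  have main : ∀ w : SL(2, ℤ), ∀ h : SL(2, ℤ), ∀ j ≤ n, per N n j h (h * w) ∈ lattice N n := by
    intro w
    have hw : w ∈ Subgroup.closure {ModularGroup.S, ModularGroup.T} := by
      rw [SpecialLinearGroup.SL2Z_generators]; trivial
    induction hw using Subgroup.closure_induction with
    | mem x hx =>
      intro h j hj
      rcases hx with rfl | hx
      · exact Lattice.per_mul_S N n j hj h
      · rw [Set.mem_singleton_iff] at hx
        subst hx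
        rw [Lattice.per_mul_T N n j hj h]
        exact Submodule.zero_mem _
    | one =>
      intro h j hj
      rw [mul_one, Lattice.per_self N n j hj h]
      exact Submodule.zero_mem _
    | mul x y _ _ hx hy =>
      intro h j hj
      rw [Lattice.per_trans N n j hj h (h * x) (h * (x * y))]
      refine Submodule.add_mem _ (hx h j hj) ?_
      rw [← mul_assoc]
      exact hy (h * x) j hj
    | inv x _ hx =>
      intro h j hj
      rw [Lattice.per_symm N n j hj (h * x⁻¹) h]
      refine Submodule.neg_mem _ ?_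
      have := hx (h * x⁻¹) j hj
      rwa [inv_mul_cancel_right] at this
  have := main (g⁻¹ * g') g j hj
  rwa [mul_inv_cancel_left] at this

end Fermat.Agent.S22

end
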