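import Fermat.Agent.S22.Defs

set_option autoImplicit false

noncomputable section

namespace Fermat.Agent.S22

open UpperHalfPlane Filter Topology Matrix.SpecialLinearGroup CongruenceSubgroup
open scoped MatrixGroups ModularForm Manifold

theorem cuspForm_eq_zero_of_weight_nonpos (N : ℕ) [NeZero N] {k : ℤ} (hk : k ≤ 0)
    (f : CuspForm (Gamma0 N) k) : f = 0 := by
  rcases hk.lt_or_eq with hk | rfl
  · apply CuspForm.toModularFormₗ_injective
    rw [map_zero]
    exact ModularForm.isZero_of_neg_weight hk _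
  · obtain ⟨c, hc⟩ := ModularForm.eq_const_of_weight_zero (CuspForm.toModularFormₗ f)
    have hc' : (f : ℍ → ℂ) = Function.const ℍ c := by
      rw [← hc]
      rfl
    have h0 : IsZeroAtImInfty (f : ℍ → ℂ) := CuspFormClass.zero_at_infty f
    rw [hc'] at h0
    have : c = 0 := by
      have h1 : Tendsto (Function.const ℍ c) atImInfty (𝓝 c) := tendsto_const_nhds
      exact tendsto_nhds_unique h1 h0
    ext τ
    rw [hc', this]
    rfl

theorem cuspForm_eq_zero_of_weight_odd (N : ℕ) [NeZero N] {k : ℤ} (hk : Odd k)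
    (f : CuspForm (Gamma0 N) k) : f = 0 := by
  have hmem : (-1 : SL(2, ℤ)) ∈ Gamma0 N := by
    rw [Gamma0_mem]
    simp
  have hmem' : (-1 : GL (Fin 2) ℝ) ∈ ((Gamma0 N : Subgroup SL(2, ℤ)) : Subgroup (GL (Fin 2) ℝ)) :=
    ⟨-1, hmem, by ext; simp⟩
  apply CuspForm.toModularFormₗ_injective
  rw [map_zero]
  exact ModularForm.eq_zero_of_neg_one_mem hmem' hk _

end Fermat.Agent.S22

end
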