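import Fermat.Agent.S22.Lattice
import Fermat.Agent.S22.Zero

set_option autoImplicit false

noncomputable section

namespace Fermat.Agent.S22

open UpperHalfPlane Filter Topology Matrix.SpecialLinearGroup CongruenceSubgroup
open scoped MatrixGroups ModularForm Manifold

/-- binomial expansion of the integrand -/
theorem Sep.linpow_eq_sum (n : ℕ) (u v : ℂ) (f : ℍ → ℂ) :
    linpow n u v f = ∑ j ∈ Finset.range (n + 1),
      (u ^ j * v ^ (n - j) * (n.choose j : ℂ)) • mono j f := by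
  funext τ
  simp only [linpow, mono, Finset.sum_apply, Pi.smul_apply, smul_eq_mul]
  rw [add_pow, Finset.sum_mul]
  refine Finset.sum_congr rfl fun j _ => ?_
  rw [mul_pow]
  ring

/-- If all the monomial primitives vanish at a cusp, so do the primitives with weight
`(u τ + v) ^ n`. -/
theorem Sep.cuspPrim_linpow (n : ℕ) (f : ℍ → ℂ) (μ : ℕ → ℍ → ℂ) (g : GL (Fin 2) ℝ)
    (hμ : ∀ j ≤ n, IsCuspPrim (mono j f) g (μ j)) (u v : ℂ) :
    IsCuspPrim (linpow n u v f) g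
      (∑ j ∈ Finset.range (n + 1), (u ^ j * v ^ (n - j) * (n.choose j : ℂ)) • μ j) := by
  rw [Sep.linpow_eq_sum]
  refine IsCuspPrim.sum _ fun j hj => ?_
  exact (hμ j (Nat.lt_succ_iff.mp (Finset.mem_range.mp hj))).const_smul _

/-- The key transformation property of the Eichler integral when all periods vanish. -/
theorem Sep.key (n : ℕ) (f : ℍ → ℂ) (μ : ℕ → ℍ → ℂ) (γ : GL (Fin 2) ℝ) (hγ : γ.det.val = 1)
    (hμ1 : ∀ j ≤ n, IsCuspPrim (mono j f) 1 (μ j))
    (hμγ : ∀ j ≤ n, IsCuspPrim (mono j f) γ (μ j))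
    {h : ℝ} (hh : 0 < h) (G₁ G : ℕ → ℍ → ℂ)
    (hG₁ : ∀ i, IsCP h (G₁ i) ∧ IsPrim (G₁ i) (G₁ (i + 1))) (hG₁0 : G₁ 0 = f)
    (hG : ∀ i, IsCP h (G i) ∧ IsPrim (G i) (G (i + 1))) (hG0 : G 0 = f ∣[(n : ℤ) + 2] γ)
    (w : ℍ) :
    denom γ w ^ n * G₁ (n + 1) (γ • w) = G (n + 1) w := by
  have hpos : 0 < γ.det.val := by rw [hγ]; exact one_pos
  set u₀ : ℂ := (-1 : ℂ) * γ 1 1 - (w : ℂ) * γ 1 0 with hu₀
  set v₀ : ℂ := - (-1 : ℂ) * γ 0 1 + (w : ℂ) * γ 0 0 with hv₀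
  set Λ : ℍ → ℂ := ∑ j ∈ Finset.range (n + 1), (u₀ ^ j * v₀ ^ (n - j) * (n.choose j : ℂ)) • μ j
    with hΛ
  have hΛ1 : IsCuspPrim (linpow n u₀ v₀ f) 1 Λ := Sep.cuspPrim_linpow n f μ 1 hμ1 u₀ v₀
  have hΛγ : IsCuspPrim (linpow n u₀ v₀ f) (γ * 1) Λ := by
    rw [mul_one]; exact Sep.cuspPrim_linpow n f μ γ hμγ u₀ v₀
  -- the primitive at level `f ∣ γ`
  obtain ⟨ν, hν, hνval⟩ := exists_prim_linpow hh G hG (-1) (w : ℂ) n
  have h1 : IsCuspPrim (linpow n (-1) (w : ℂ) (G 0)) 1 (fun z => Λ (γ • z)) := by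
    rw [hG0, linpow_slash n (-1) (w : ℂ) f γ hpos]
    exact hΛγ.slash hpos
  have e1 : ν = fun z => Λ (γ • z) := hν.unique h1
  have e1' : Λ (γ • w) = (n.factorial : ℂ) * G (n + 1) w := by
    have := hνval w (by ring)
    rw [e1] at this
    simpa using this
  -- the primitive at level `f`
  obtain ⟨ν₁, hν₁, hν₁val⟩ := exists_prim_linpow hh G₁ hG₁ u₀ v₀ n
  rw [hG₁0] at hν₁
  have e2 : ν₁ = Λ := hν₁.unique hΛ1
  have hden : denom γ w ≠ 0 := denom_ne_zero γ w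
  have hu₀' : u₀ = - denom γ w := by
    simp only [hu₀, denom]; ring
  have hv₀' : v₀ = num γ w := by
    simp only [hv₀, num]; ring
  have hz : u₀ * ((γ • w : ℍ) : ℂ) + v₀ = 0 := by
    rw [coe_smul_of_det_pos hpos, hu₀', hv₀']
    field_simp
    ring
  have e2' : Λ (γ • w) = denom γ w ^ n * (n.factorial : ℂ) * G₁ (n + 1) (γ • w) := by
    have := hν₁val (γ • w) hz
    rw [e2, hu₀', neg_neg] at this
    exact this
  have hfac : (n.factorial : ℂ) ≠ 0 := by exact_mod_cast n.factorial_ne_zero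
  have : (n.factorial : ℂ) * (denom γ w ^ n * G₁ (n + 1) (γ • w))
      = (n.factorial : ℂ) * G (n + 1) w := by
    rw [← e1', e2']; ring
  exact mul_left_cancel₀ hfac this

theorem Sep.det_mapGL (g : SL(2, ℤ)) : (mapGL ℝ g).det.val = 1 := by
  simp

theorem Sep.slash_eq (n : ℕ) (E : ℍ → ℂ) (g : SL(2, ℤ)) :
    E ∣[-(n : ℤ)] (mapGL ℝ g) = fun w : ℍ => denom (mapGL ℝ g) w ^ n * E (mapGL ℝ g • w) := by
  funext w
  have := ModularForm.SL_slash_apply (k := -(n : ℤ)) E g w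
  rw [neg_neg, zpow_natCast, mul_comm] at this
  exact this

theorem lattice_sep (N : ℕ) [NeZero N] (n : ℕ) (f : CuspForm (Gamma0 N) ((n : ℤ) + 2))
    (hf : ∀ ξ ∈ lattice N n, ξ f = 0) : f = 0 := by
  have hper : ∀ j ≤ n, ∀ g g', per N n j g g' f = 0 :=
    fun j hj g g' => hf _ (per_mem_lattice N n j hj g g')
  have hμ : ∀ j, ∃ μ : ℍ → ℂ, j ≤ n → ∀ g : SL(2, ℤ), IsCuspPrim (mono j f) (mapGL ℝ g) μ := by
    intro j
    by_cases hj : j ≤ n
    · obtain ⟨μ, μ', h1, -, -⟩ := per_spec N n j hj 1 1 f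
      refine ⟨μ, fun _ g => ?_⟩
      obtain ⟨ν, ν', h2, h3, h4⟩ := per_spec N n j hj 1 g f
      rw [hper j hj 1 g] at h4
      have e1 : ν = ν' := funext fun τ => sub_eq_zero.mp (h4 τ)
      have e2 : μ = ν := h1.unique h2
      rw [e2, e1]
      exact h3
    · exact ⟨0, fun h => absurd h hj⟩
  choose μ hμ using hμ
  obtain ⟨h, hh, hCP⟩ := exists_isCP_slash N _ f
  obtain ⟨G₁, hG₁0, hG₁⟩ := (hCP 1).exists_chain hh
  have hG₁0' : G₁ 0 = f := by rw [hG₁0, map_one, SlashAction.slash_one]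
  have hμ1 : ∀ j ≤ n, IsCuspPrim (mono j f) 1 (μ j) := by
    intro j hj
    have := hμ j hj 1
    rwa [map_one] at this
  -- transformation behaviour of the Eichler integral
  have hslash : ∀ (g : SL(2, ℤ)) (G : ℕ → ℍ → ℂ),
      (∀ i, IsCP h (G i) ∧ IsPrim (G i) (G (i + 1))) → G 0 = ⇑f ∣[(n : ℤ) + 2] (mapGL ℝ g) →
      G₁ (n + 1) ∣[-(n : ℤ)] (mapGL ℝ g) = G (n + 1) := by
    intro g G hG hG0
    rw [Sep.slash_eq]
    funext w
    exact Sep.key n f μ (mapGL ℝ g) (Sep.det_mapGL g) hμ1 (fun j hj => hμ j hj g) hh G₁ G hG₁ hG₁0'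
      hG hG0 w
  let E : CuspForm (Gamma0 N) (-(n : ℤ)) :=
    { toFun := G₁ (n + 1)
      slash_action_eq' := by
        intro γ hγ
        obtain ⟨g, hg, rfl⟩ := Subgroup.mem_map.mp hγ
        refine hslash g G₁ hG₁ ?_
        rw [hG₁0']
        exact (SlashInvariantFormClass.slash_action_eq f _ (Subgroup.mem_map_of_mem _ hg)).symm
      holo' := (hG₁ (n + 1)).1.holo
      zero_at_cusps' := by
        intro c hc
        have hc' : IsCusp c 𝒮ℒ := (Subgroup.IsArithmetic.isCusp_iff_isCusp_SL2Z _).mp hc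
        refine (OnePoint.isZeroAt_iff_forall_SL2Z hc').mpr fun g _ => ?_
        obtain ⟨G, hG0, hG⟩ := (hCP g).exists_chain hh
        have := hslash g G hG hG0
        rw [ModularForm.SL_slash]
        show IsZeroAtImInfty (G₁ (n + 1) ∣[-(n : ℤ)] (mapGL ℝ g))
        rw [this]
        exact (hG (n + 1)).1.zero }
  have hE : E = 0 := cuspForm_eq_zero_of_weight_nonpos N (by omega) E
  have hE' : G₁ (n + 1) = 0 := by
    have := congrArg (fun F : CuspForm (Gamma0 N) (-(n : ℤ)) => (⇑F : ℍ → ℂ)) hE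
    exact this
  have hall : ∀ i, G₁ (n + 1 - i) = 0 := by
    intro i
    induction i with
    | zero => exact hE'
    | succ i ih =>
      rcases Nat.lt_or_ge i (n + 1) with hi | hi
      · have h2 := (hG₁ (n + 1 - (i + 1))).2
        have e : n + 1 - (i + 1) + 1 = n + 1 - i := by omega
        rw [e, ih] at h2
        exact h2.eq_zero_of_zero
      · have e : n + 1 - (i + 1) = n + 1 - i := by omega
        rw [e]; exact ih
  have h0 : G₁ 0 = 0 := by
    have := hall (n + 1)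
    simpa using this
  rw [hG₁0'] at h0
  exact DFunLike.coe_injective (h0.trans (by rfl))

end Fermat.Agent.S22

end
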