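import Fermat.Agent.S22.Lattice
import Fermat.Agent.S22.Decomp

set_option autoImplicit false

noncomputable section

namespace Fermat.Agent.S22

open UpperHalfPlane Filter Topology Matrix.SpecialLinearGroup CongruenceSubgroup
open scoped MatrixGroups ModularForm Manifold

theorem mono_sum {ι : Type*} (s : Finset ι) (j : ℕ) (F : ι → ℍ → ℂ) :
    mono j (∑ i ∈ s, F i) = ∑ i ∈ s, mono j (F i) := by
  funext τ
  simp only [mono, Finset.sum_apply, Finset.mul_sum]

/-- one summand: the period of `f ∣ α` is an integral combination of periods of `f`. -/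
theorem exists_lattice_slash (N : ℕ) [NeZero N] (n : ℕ) {α : GL (Fin 2) ℝ} (hα : IsIntMat α)
    (hdet : 0 < α.det.val) (j : ℕ) (hj : j ≤ n) (g g' : SL(2, ℤ)) :
    ∃ zt ∈ lattice N n, ∀ f : CuspForm (Gamma0 N) ((n : ℤ) + 2),
      IsPer (mono j ((⇑f : ℍ → ℂ) ∣[(n : ℤ) + 2] α)) (mapGL ℝ g) (mapGL ℝ g') (zt f) := by
  obtain ⟨e, he⟩ := exists_int_coeffs_slash n hα hdet j hj
  obtain ⟨g₁, b₁, hb₁, hd₁, h₁⟩ := exists_SL2_mul_upper hα hdet g
  obtain ⟨g₂, b₂, hb₂, hd₂, h₂⟩ := exists_SL2_mul_upper hα hdet g'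
  refine ⟨∑ l ∈ Finset.range (n + 1), e l • per N n l g₁ g₂, ?_, fun f => ?_⟩
  · refine Submodule.sum_mem _ fun l hl => Submodule.smul_mem _ _ ?_
    exact per_mem_lattice N n l (Nat.lt_succ_iff.mp (Finset.mem_range.mp hl)) g₁ g₂
  · have key := he (⇑f) (mapGL ℝ g) (mapGL ℝ g') (fun l => per N n l g₁ g₂ f) (fun l hl => by
      rw [h₁, h₂]
      exact (per_spec N n l hl g₁ g₂ f).mul_right hb₁ hd₁ hb₂ hd₂)
    have hval : (∑ l ∈ Finset.range (n + 1), e l • per N n l g₁ g₂) f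
        = ∑ l ∈ Finset.range (n + 1), (e l : ℂ) * per N n l g₁ g₂ f := by
      rw [LinearMap.sum_apply]
      refine Finset.sum_congr rfl fun l _ => ?_
      rw [LinearMap.smul_apply, zsmul_eq_mul]
    rw [hval]
    exact key

theorem lattice_stable (N : ℕ) [NeZero N] (n : ℕ)
    (t : Module.End ℂ (CuspForm (Gamma0 N) ((n : ℤ) + 2)))
    {ι : Type*} (s : Finset ι) (α : ι → GL (Fin 2) ℝ) (hα : ∀ i ∈ s, IsIntMat (α i))
    (hdet : ∀ i ∈ s, 0 < (α i).det.val)
    (ht : ∀ f, (⇑(t f) : ℍ → ℂ) = ∑ i ∈ s, (⇑f : ℍ → ℂ) ∣[(n : ℤ) + 2] (α i))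
    (ξ : Module.Dual ℂ (CuspForm (Gamma0 N) ((n : ℤ) + 2))) (hξ : ξ ∈ lattice N n) :
    ξ ∘ₗ t ∈ lattice N n := by
  classical
  induction hξ using Submodule.span_induction with
  | mem ξ hξ =>
    obtain ⟨⟨j, x⟩, rfl⟩ := hξ
    have hj : (j : ℕ) ≤ n := Nat.lt_succ_iff.mp j.2
    set g : SL(2, ℤ) := (x.out)⁻¹ with hg
    set g' : SL(2, ℤ) := (x.out)⁻¹ * ModularGroup.S with hg'
    have hex : ∀ i : ι, ∃ zt ∈ lattice N n, i ∈ s → ∀ f : CuspForm (Gamma0 N) ((n : ℤ) + 2),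
        IsPer (mono j ((⇑f : ℍ → ℂ) ∣[(n : ℤ) + 2] (α i))) (mapGL ℝ g) (mapGL ℝ g') (zt f) := by
      intro i
      by_cases hi : i ∈ s
      · obtain ⟨zt, hzt, h⟩ := exists_lattice_slash N n (hα i hi) (hdet i hi) j hj g g'
        exact ⟨zt, hzt, fun _ => h⟩
      · exact ⟨0, Submodule.zero_mem _, fun h => absurd h hi⟩
    choose zt hzt hper using hex
    have hsum : (per N n j g g') ∘ₗ t = ∑ i ∈ s, zt i := by
      refine LinearMap.ext fun f => ?_
      rw [LinearMap.comp_apply, LinearMap.sum_apply]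
      have h1 := per_spec N n j hj g g' (t f)
      rw [ht f, mono_sum] at h1
      have h2 : IsPer (∑ i ∈ s, mono j ((⇑f : ℍ → ℂ) ∣[(n : ℤ) + 2] (α i))) (mapGL ℝ g)
          (mapGL ℝ g') (∑ i ∈ s, zt i f) := IsPer.sum s fun i hi => hper i hi f
      exact h1.unique h2
    show (per N n j g g') ∘ₗ t ∈ lattice N n
    rw [hsum]
    exact Submodule.sum_mem _ fun i _ => hzt i
  | zero => simp
  | add x y _ _ hx hy =>
    rw [LinearMap.add_comp]
    exact Submodule.add_mem _ hx hy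
  | smul a x _ hx =>
    rw [LinearMap.smul_comp]
    exact Submodule.smul_mem _ _ hx

theorem isIntMat_heckeMatrix (p j : ℕ) : IsIntMat (ModularForm.heckeMatrix p j) := by
  rcases eq_or_ne p 0 with rfl | hp
  · refine ⟨1, 0, 0, 1, ?_⟩
    rw [ModularForm.heckeMatrix_zero]
    ext a b
    fin_cases a <;> fin_cases b <;> simp
  · refine ⟨1, j, 0, p, ?_⟩
    rw [ModularForm.val_heckeMatrix hp]
    simp

theorem isIntMat_heckeDiagMatrix (p : ℕ) : IsIntMat (ModularForm.heckeDiagMatrix p) := by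
  rcases eq_or_ne p 0 with rfl | hp
  · refine ⟨1, 0, 0, 1, ?_⟩
    rw [ModularForm.heckeDiagMatrix_zero]
    ext a b
    fin_cases a <;> fin_cases b <;> simp
  · refine ⟨p, 0, 0, 1, ?_⟩
    rw [ModularForm.val_heckeDiagMatrix hp]
    simp

theorem lattice_stable_gens (N : ℕ) [NeZero N] (n : ℕ) (S : Set ℕ)
    (t : Module.End ℂ (CuspForm (Gamma0 N) ((n : ℤ) + 2)))
    (ht : t ∈ CuspForm.heckeGenerators N ((n : ℤ) + 2) S)
    (ξ : Module.Dual ℂ (CuspForm (Gamma0 N) ((n : ℤ) + 2))) (hξ : ξ ∈ lattice N n) :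
    ξ ∘ₗ t ∈ lattice N n := by
  rcases ht with ⟨ℓ, hℓ, hℓN, -, rfl⟩ | ⟨q, hqN, -, -, rfl⟩
  · refine lattice_stable N n _ (Finset.range (ℓ + 1))
      (fun i => if i < ℓ then ModularForm.heckeMatrix ℓ i else ModularForm.heckeDiagMatrix ℓ)
      (fun i _ => ?_) (fun i _ => ?_) (fun f => ?_) ξ hξ
    · split_ifs
      · exact isIntMat_heckeMatrix ℓ i
      · exact isIntMat_heckeDiagMatrix ℓ
    · split_ifs
      · exact ModularForm.det_heckeMatrix_pos ℓ i
      · exact ModularForm.det_heckeDiagMatrix_pos ℓ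
    · rw [CuspForm.coe_heckeTLin_apply, ModularForm.heckeT_def, Finset.sum_range_succ]
      congr 1
      · refine Finset.sum_congr rfl fun i hi => ?_
        rw [if_pos (Finset.mem_range.mp hi)]
      · rw [if_neg (lt_irrefl ℓ)]
  · refine lattice_stable N n _ (Finset.range q) (fun i => ModularForm.heckeMatrix q i)
      (fun i _ => isIntMat_heckeMatrix q i) (fun i _ => ModularForm.det_heckeMatrix_pos q i)
      (fun f => ?_) ξ hξ
    rw [CuspForm.coe_heckeULin_apply, ModularForm.heckeU_def]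

end Fermat.Agent.S22

end
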