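import Fermat.Agent.S22.Algebra
import Fermat.Agent.S22.Sep
import Fermat.Agent.S22.Stable

set_option autoImplicit false

noncomputable section

namespace Fermat.Agent.S22

open UpperHalfPlane Filter Topology Matrix.SpecialLinearGroup CongruenceSubgroup
open scoped MatrixGroups ModularForm Manifold

theorem main (N : ℕ) [NeZero N] (k : ℤ) (S : Set ℕ) :
    Module.Finite ℤ (CuspForm.heckeAlgebra N k S) := by
  rcases le_or_gt k 1 with hk | hk
  · have hz : ∀ f : CuspForm (Gamma0 N) k, f = 0 := by
      intro f
      rcases le_or_gt k 0 with h0 | h0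
      · exact cuspForm_eq_zero_of_weight_nonpos N h0 f
      · have : k = 1 := by omega
        subst this
        exact cuspForm_eq_zero_of_weight_odd N odd_one f
    have : Subsingleton (CuspForm (Gamma0 N) k) := ⟨fun a b => by rw [hz a, hz b]⟩
    have : Subsingleton (Module.End ℂ (CuspForm (Gamma0 N) k)) :=
      ⟨fun a b => LinearMap.ext fun x => Subsingleton.elim _ _⟩
    infer_instance
  · obtain ⟨n, rfl⟩ : ∃ n : ℕ, k = (n : ℤ) + 2 := ⟨(k - 2).toNat, by omega⟩
    exact finite_of_dual_lattice _ (lattice N n) (lattice_fg N n)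
      (fun t ht ξ hξ => lattice_stable_gens N n S t ht ξ hξ) (lattice_sep N n)

end Fermat.Agent.S22

end
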